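import Mathlib.Analysis.SpecialFunctions.ImproperIntegrals
import Mathlib.MeasureTheory.Integral.IntegralEqImproper
import Mathlib.MeasureTheory.Group.Measure
import Mathlib.MeasureTheory.Measure.Lebesgue.Basic
import Fermat.Agent.SieveConstant.Ein

/-!
# The Euler–Gompertz integral

`G x = ∫₀^∞ exp (-t) / (x + t) dt` is `exp x (-γ - log x + Ein x)` for `x > 0`.
-/

set_option autoImplicit false

noncomputable section

namespace FA.Gompertz

open MeasureTheory Filter Set
open scoped Topology
open FA.SieveConstant (ein)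

/-- `G x = ∫₀^∞ exp (-t) / (x + t) dt`. -/
def gompertz (x : ℝ) : ℝ := ∫ t in Ioi (0 : ℝ), Real.exp (-t) / (x + t)

theorem integrableOn_exp_neg_div {x : ℝ} (hx : 0 < x) :
    IntegrableOn (fun u => Real.exp (-u) / u) (Ioi x) := by
  refine Integrable.mono' ((integrableOn_exp_neg_Ioi x).const_mul x⁻¹)
    (ContinuousOn.aestronglyMeasurable ((Real.continuous_exp.comp continuous_neg).continuousOn.div
      continuousOn_id fun u hu => (hx.trans hu).ne') measurableSet_Ioi) ?_
  refine (ae_restrict_iff' measurableSet_Ioi).2 (ae_of_all _ fun u hu => ?_)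
  have hu0 : 0 < u := hx.trans hu
  rw [Real.norm_eq_abs, abs_of_pos (div_pos (Real.exp_pos _) hu0), div_eq_inv_mul]
  exact mul_le_mul_of_nonneg_right (inv_anti₀ hx (le_of_lt hu)) (Real.exp_pos _).le

/-- The tail of the exponential integral. -/
theorem integral_exp_neg_div {x : ℝ} (hx : 0 < x) :
    ∫ u in Ioi x, Real.exp (-u) / u = -Real.eulerMascheroniConstant - Real.log x + ein x := by
  have h1 := intervalIntegral_tendsto_integral_Ioi x (integrableOn_exp_neg_div hx)
    (tendsto_natCast_atTop_atTop (R := ℝ))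
  have h2 : Tendsto (fun n : ℕ => -(ein n - Real.log n) - (Real.log x - ein x)) atTop
      (𝓝 (-Real.eulerMascheroniConstant - (Real.log x - ein x))) :=
    FA.SieveConstant.tendsto_ein_sub_log.neg.sub_const _
  rw [tendsto_nhds_unique h1 (h2.congr' ?_)]
  · ring
  filter_upwards [eventually_ge_atTop ⌈x⌉₊] with n hn
  have hxn : x ≤ n := (Nat.le_ceil x).trans (Nat.cast_le.2 hn)
  have hpos : ∀ u ∈ uIcc x (n : ℝ), 0 < u := fun u hu =>
    hx.trans_le ((uIcc_of_le hxn ▸ hu).1)
  have hd : ∀ u ∈ uIcc x (n : ℝ), HasDerivAt (fun u => Real.log u - ein u)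
      (Real.exp (-u) / u) u := fun u hu => by
    refine ((Real.hasDerivAt_log (hpos u hu).ne').sub
      (FA.SieveConstant.hasDerivAt_ein u)).congr_deriv ?_
    rw [FA.SieveConstant.einKernel_of_ne (hpos u hu).ne', inv_eq_one_div, ← sub_div]
    ring_nf
  have hi : IntervalIntegrable (fun u => Real.exp (-u) / u) volume x n :=
    ((Real.continuous_exp.comp continuous_neg).continuousOn.div continuousOn_id
      fun u hu => (hpos u hu).ne').intervalIntegrable
  rw [intervalIntegral.integral_eq_sub_of_hasDerivAt hd hi]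
  ring

/-- **`G x = exp x (-γ - log x + Ein x)`.** -/
theorem gompertz_eq {x : ℝ} (hx : 0 < x) :
    gompertz x = Real.exp x * (-Real.eulerMascheroniConstant - Real.log x + ein x) := by
  have h := (measurePreserving_add_right volume x).setIntegral_preimage_emb
    (measurableEmbedding_addRight x) (fun u => Real.exp (-u) / u) (Ioi x)
  rw [preimage_add_const_Ioi, sub_self, integral_exp_neg_div hx] at h
  rw [← h, gompertz, ← integral_const_mul]
  refine setIntegral_congr_fun measurableSet_Ioi fun t _ => ?_
  rw [← mul_div_assoc, ← Real.exp_add, add_comm x t]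
  ring_nf

end FA.Gompertz
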