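import Fermat.Agent.Gompertz.Identity
import Fermat.Agent.SineIntegral.Integrals

/-!
# Euler's constant and the Euler–Gompertz constant

By the Siegel–Shidlovskii theorem the numbers `e` and `Ein q`, for distinct positive rationals
`q`, are algebraically independent.  With `G x = exp x (-γ - log x + Ein x)` this gives that
`γ` and `δ = G 1` are not both algebraic over `ℚ(e)` and, as `γ` cancels in suitable
combinations, that `G (q ^ k)` is algebraic for at most two integers `k`.
-/

set_option autoImplicit false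

noncomputable section

namespace FA.Gompertz

open MeasureTheory Finset
open FA.SieveConstant (ein)
open FA.ExponentialIntegral (eiSeries)
open FA.SiegelShidlovskii (cval_ofReal)

theorem ein_eq (x : ℝ) : ein x = -FA.SiegelShidlovskii.val (eiSeries 1) (-x) := by
  rw [← FA.SineIntegral.integral_ein]
  refine intervalIntegral.integral_congr_ae ?_
  filter_upwards [MeasureTheory.compl_mem_ae_iff.2 (measure_singleton (0 : ℝ))] with t ht _
  exact FA.SieveConstant.einKernel_of_ne ht

/-- `e` and the `Ein q` are algebraically independent. -/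
theorem independent_exp_ein {r : ℕ} {q : Fin r → ℚ} (hq0 : ∀ i, q i ≠ 0)
    (hqi : Function.Injective q) :
    AlgebraicIndependent ℚ fun o : Option (Fin r) => o.elim (Real.exp 1)
      fun i => FA.SiegelShidlovskii.val (eiSeries 1) (-(q i : ℝ)) := by
  have h := (FA.SineIntegral.independent_rational_multiples (s := 1) (α := (1 : ℂ))
    isAlgebraic_one one_ne_zero (q := fun i => -q i) (fun i => neg_ne_zero.2 (hq0 i))
    (neg_injective.comp hqi)).comp (Option.map fun i => (i, (0 : Fin 1)))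
    (Option.map_injective fun a b hab => congrArg Prod.fst hab)
  refine AlgebraicIndependent.of_comp (Complex.ofRealAm.restrictScalars ℚ) ?_
  convert h using 1
  funext o
  rcases o with _ | i
  · simp
  · simp [← cval_ofReal]

theorem isAlgebraic_exp_ratCast {B : Subalgebra ℚ ℝ} (h : Real.exp 1 ∈ B) (q : ℚ) :
    IsAlgebraic B (Real.exp (q : ℝ)) := by
  refine IsAlgebraic.of_pow q.den_pos ?_
  have he : IsAlgebraic B (Real.exp 1) := isAlgebraic_algebraMap (⟨_, h⟩ : B)
  have hq : Real.exp (q : ℝ) ^ q.den = Real.exp 1 ^ q.num := by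
    rw [← Real.exp_nat_mul, ← Real.rpow_intCast, ← Real.exp_mul, one_mul]
    congr 1
    rw [mul_comm, ← Rat.cast_natCast, ← Rat.cast_mul, Rat.mul_den_eq_num, Rat.cast_intCast]
  rw [hq]
  rcases Int.eq_nat_or_neg q.num with ⟨m, hm | hm⟩ <;> rw [hm]
  · rw [zpow_natCast]
    exact he.pow m
  · rw [zpow_neg, zpow_natCast]
    exact (he.pow m).inv

theorem ein_eq_gompertz {x : ℝ} (hx : 0 < x) : ein x =
    gompertz x * Real.exp (-x) + (Real.eulerMascheroniConstant + Real.log x) := by
  rw [gompertz_eq hx, mul_comm (Real.exp x), mul_assoc, ← Real.exp_add, add_neg_cancel,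
    Real.exp_zero]
  ring

/-- **Not both `γ` and `δ = G 1` are algebraic over `ℚ(e)`.** -/
theorem not_isAlgebraic_euler_and_gompertz :
    ¬ (IsAlgebraic (Algebra.adjoin ℚ {Real.exp 1}) Real.eulerMascheroniConstant ∧
      IsAlgebraic (Algebra.adjoin ℚ {Real.exp 1}) (gompertz 1)) := by
  rintro ⟨hγ, hδ⟩
  have h := (independent_exp_ein (q := fun _ : Fin 1 => (1 : ℚ)) (fun _ => one_ne_zero)
    (Function.injective_of_subsingleton _)).transcendental_adjoin (i := some 0) (s := {none})
    (by simp)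
  rw [Set.image_singleton, Option.elim_none, Option.elim_some, Rat.cast_one] at h
  refine h ?_
  have hv : FA.SiegelShidlovskii.val (eiSeries 1) (-1) =
      -(gompertz 1 * Real.exp (-1) + Real.eulerMascheroniConstant) := by
    have h1 := ein_eq 1
    rw [ein_eq_gompertz one_pos, Real.log_one, add_zero] at h1
    linarith
  rw [hv, Real.exp_neg]
  exact ((hδ.mul (isAlgebraic_algebraMap
    (⟨_, Algebra.subset_adjoin rfl⟩ : Algebra.adjoin ℚ {Real.exp 1})).inv).add hγ).neg

/-- **`γ` or `δ` is transcendental.** -/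
theorem transcendental_euler_or_gompertz :
    Transcendental ℚ Real.eulerMascheroniConstant ∨ Transcendental ℚ (gompertz 1) := by
  by_contra h
  simp only [not_or, Transcendental, not_not] at h
  exact not_isAlgebraic_euler_and_gompertz
    ⟨h.1.extendScalars (algebraMap ℚ (Algebra.adjoin ℚ {Real.exp 1})).injective,
      h.2.extendScalars (algebraMap ℚ (Algebra.adjoin ℚ {Real.exp 1})).injective⟩

/-- **For algebraic `x > 0`, `γ + log x` or `G x` is transcendental.** -/
theorem transcendental_euler_log_or_gompertz {x : ℝ} (hx : IsAlgebraic ℚ x) (hx0 : 0 < x) :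
    Transcendental ℚ (Real.eulerMascheroniConstant + Real.log x) ∨
      Transcendental ℚ (gompertz x) := by
  by_contra h
  simp only [not_or, Transcendental, not_not] at h
  have hi := (FA.ExponentialIntegral.algebraicIndependent_integral hx.neg
    (neg_ne_zero.2 hx0.ne')).transcendental_adjoin (i := 1) (s := {0}) (by simp)
  rw [Set.image_singleton, Matrix.cons_val_zero, Matrix.cons_val_one, Matrix.cons_val_zero,
    FA.ExponentialIntegral.integral_eq_val] at hi
  refine hi ?_
  have hinj := (algebraMap ℚ (Algebra.adjoin ℚ {Real.exp (-x)})).injective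
  have h1 := ein_eq x
  rw [ein_eq_gompertz hx0] at h1
  rw [← neg_neg (FA.SiegelShidlovskii.val (eiSeries 1) (-x)), ← h1]
  exact (((h.2.extendScalars hinj).mul (isAlgebraic_algebraMap
    (⟨_, Algebra.subset_adjoin rfl⟩ : Algebra.adjoin ℚ {Real.exp (-x)}))).add
    (h.1.extendScalars hinj)).neg

/-- **Multiplicative relations of degree zero.** -/
theorem exists_not_isAlgebraic_gompertz {r : ℕ} {q : Fin r → ℚ} {n : Fin r → ℤ}
    (hq : ∀ i, 0 < q i) (hqi : Function.Injective q) (hn : n ≠ 0) (hsum : ∑ i, n i = 0)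
    (hprod : ∏ i, q i ^ n i = 1) :
    ∃ i, ¬ IsAlgebraic (Algebra.adjoin ℚ {Real.exp 1}) (gompertz (q i)) := by
  by_contra! hall
  obtain ⟨j, hj⟩ := Function.ne_iff.1 hn
  have hpos : ∀ i, (0 : ℝ) < q i := fun i => Rat.cast_pos.2 (hq i)
  obtain ⟨v, hv⟩ : ∃ v : Fin r → ℝ,
      ∀ i, v i = FA.SiegelShidlovskii.val (eiSeries 1) (-(q i : ℝ)) := ⟨_, fun _ => rfl⟩
  have hx := (independent_exp_ein (fun i => (hq i).ne') hqi).transcendental_adjoin
    (i := some j) (s := {some j}ᶜ) (by simp)
  set B := Algebra.adjoin ℚ ((fun o : Option (Fin r) => o.elim (Real.exp 1)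
    fun i => FA.SiegelShidlovskii.val (eiSeries 1) (-(q i : ℝ))) '' {some j}ᶜ) with hB
  rw [Option.elim_some, ← hv] at hx
  refine hx ?_
  have heB : Real.exp 1 ∈ B := Algebra.subset_adjoin ⟨none, by simp, rfl⟩
  have hle : Algebra.adjoin ℚ {Real.exp 1} ≤ B :=
    Algebra.adjoin_le (Set.singleton_subset_iff.2 heB)
  have hterm : ∀ i, v i =
      -(gompertz (q i) * Real.exp (-(q i : ℝ))) -
        Real.eulerMascheroniConstant - Real.log (q i) := fun i => by
    have h1 := ein_eq (q i)
    rw [ein_eq_gompertz (hpos i), ← hv] at h1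
    linarith
  have hlog : ∑ i, (n i : ℝ) * Real.log (q i) = 0 := by
    have h1 := congrArg (fun x : ℚ => Real.log (x : ℝ)) hprod
    simp only [Rat.cast_prod, Rat.cast_zpow, Rat.cast_one, Real.log_one] at h1
    rw [Real.log_prod fun i _ => zpow_ne_zero _ (hpos i).ne'] at h1
    simpa only [Real.log_zpow] using h1
  have hrel : ∑ i, (n i : ℝ) * v i =
      -∑ i, (n i : ℝ) * (gompertz (q i) * Real.exp (-(q i : ℝ))) := by
    have h1 : ∑ i, (n i : ℝ) * Real.eulerMascheroniConstant = 0 := by
      rw [← Finset.sum_mul, ← Int.cast_sum, hsum, Int.cast_zero, zero_mul]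
    simp only [hterm, mul_sub, mul_neg, Finset.sum_sub_distrib, Finset.sum_neg_distrib, h1, hlog,
      sub_zero]
  rw [← Finset.add_sum_erase _ _ (mem_univ j), ← eq_sub_iff_add_eq] at hrel
  have hj' : (n j : ℝ) ≠ 0 := Int.cast_ne_zero.2 hj
  rw [← mul_div_cancel_left₀ (v j) hj', hrel, div_eq_mul_inv]
  have hS : ∀ (s : Finset (Fin r)) (F : Fin r → ℝ), (∀ i ∈ s, IsAlgebraic B (F i)) →
      IsAlgebraic B (∑ i ∈ s, F i) := fun s F h =>
    Finset.sum_induction F (IsAlgebraic B) (fun a b => IsAlgebraic.add) isAlgebraic_zero h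
  refine (((hS _ _ fun i _ => ?_).neg).sub (hS _ _ fun i hi => ?_)).mul (isAlgebraic_intCast _).inv
  · refine (isAlgebraic_intCast _).mul (((hall i).tower_top_of_subalgebra_le hle).mul ?_)
    rw [← Rat.cast_neg]
    exact isAlgebraic_exp_ratCast heB _
  · refine (isAlgebraic_intCast _).mul (isAlgebraic_algebraMap (⟨_, ?_⟩ : B))
    exact Algebra.subset_adjoin ⟨some i, by simpa using ne_of_mem_erase hi, (hv i).symm⟩

theorem exists_transcendental_gompertz {r : ℕ} {q : Fin r → ℚ} {n : Fin r → ℤ}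
    (hq : ∀ i, 0 < q i) (hqi : Function.Injective q) (hn : n ≠ 0) (hsum : ∑ i, n i = 0)
    (hprod : ∏ i, q i ^ n i = 1) : ∃ i, Transcendental ℚ (gompertz (q i)) := by
  obtain ⟨i, hi⟩ := exists_not_isAlgebraic_gompertz hq hqi hn hsum hprod
  exact ⟨i, fun h => hi (h.extendScalars (algebraMap ℚ _).injective)⟩

theorem not_three_isAlgebraic_gompertz {q : ℚ} (hq : 0 < q) (hq1 : q ≠ 1) {a b c : ℤ}
    (hab : a ≠ b) (hac : a ≠ c) (hbc : b ≠ c) :
    ¬ (IsAlgebraic ℚ (gompertz ((q : ℝ) ^ a)) ∧ IsAlgebraic ℚ (gompertz ((q : ℝ) ^ b)) ∧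
      IsAlgebraic ℚ (gompertz ((q : ℝ) ^ c))) := by
  rintro ⟨ha, hb, hc⟩
  have hinj := zpow_right_injective₀ hq hq1
  obtain ⟨i, hi⟩ := exists_transcendental_gompertz (q := ![q ^ a, q ^ b, q ^ c])
    (n := ![c - b, a - c, b - a]) (fun i => by fin_cases i <;> exact zpow_pos hq _)
    (fun i j hij => by
      fin_cases i <;> fin_cases j <;> simp_all [hinj.eq_iff, hab.symm, hac.symm, hbc.symm])
    (fun h => hbc (by have := congrFun h 0; simp at this; omega))
    (by simp [Fin.sum_univ_three])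
    (by
      simp only [Fin.prod_univ_three, Matrix.cons_val]
      rw [← zpow_mul, ← zpow_mul, ← zpow_mul, ← zpow_add₀ hq.ne', ← zpow_add₀ hq.ne']
      ring_nf
      exact zpow_zero q)
  fin_cases i <;> simp only [Fin.zero_eta, Fin.mk_one, Fin.reduceFinMk, Matrix.cons_val,
    Matrix.cons_val_zero, Matrix.cons_val_one, Rat.cast_zpow] at hi
  exacts [hi ha, hi hb, hi hc]

/-- **In a geometric progression at most two values are algebraic.** -/
theorem finite_isAlgebraic_gompertz_zpow {q : ℚ} (hq : 0 < q) (hq1 : q ≠ 1) :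
    {k : ℤ | IsAlgebraic ℚ (gompertz ((q : ℝ) ^ k))}.Finite ∧
      {k : ℤ | IsAlgebraic ℚ (gompertz ((q : ℝ) ^ k))}.ncard ≤ 2 := by
  obtain ⟨S, hS⟩ : ∃ S, S = {k : ℤ | IsAlgebraic ℚ (gompertz ((q : ℝ) ^ k))} := ⟨_, rfl⟩
  rw [← hS]
  have key : ∀ t : Finset ℤ, (t : Set ℤ) ⊆ S → t.card ≤ 2 := fun t ht => by
    by_contra! h
    obtain ⟨a, b, c, ha, hb, hc, hab, hac, hbc⟩ := Finset.two_lt_card_iff.1 h
    rw [hS] at ht
    exact not_three_isAlgebraic_gompertz hq hq1 hab hac hbc ⟨ht ha, ht hb, ht hc⟩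
  have hfin : S.Finite := by
    by_contra h
    obtain ⟨t, ht, hcard⟩ := Set.Infinite.exists_subset_card_eq h 3
    have := key t ht
    omega
  refine ⟨hfin, ?_⟩
  rw [Set.ncard_eq_toFinset_card S hfin]
  exact key _ (by simp)

end FA.Gompertz
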